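/-
GATE-R / S17, node GR-H-CANON — HEDGE TWIN (helper7) of helper20's `GR/H/Canon.lean`.

`CoreFrame` below is the SUB-frame of helper20's pinned `HeightFrame` (board 4875) that the formal
core actually uses: every field is copied VERBATIM from 4875, and the fields
`inf`, `deg_inf`, `H_add_inf`, `hs_eq_of_div0` are DROPPED (the padding step is done with the
multiplication lemma `ML` for an arbitrary section of level `d` instead of `d • inf`, so neither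
exact compatibility of the Plücker heights across levels nor `cl inf = 0` is needed).
Everything here is abstract and Mathlib-only.
-/
import Mathlib

set_option autoImplicit false

namespace Fermat.Agent.GR.H.CanonHedge

/-- The part of helper20's abstract height frame (board 4875) used by the canonical-height core. -/
structure CoreFrame (A 𝔇 Sec : Type*) [AddCommGroup A] [AddCommMonoid 𝔇] where
  deg : 𝔇 →+ ℕ
  cl : 𝔇 →+ A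
  lev : Sec → ℕ
  div0 : Sec → 𝔇
  hs : Sec → ℝ
  H : ℕ → 𝔇 → ℝ
  Good : 𝔇 → Prop
  γ : ℝ
  c₀ : ℕ
  d₀ : ℕ
  deg_div0 : ∀ s, deg (div0 s) = lev s
  cl_div0 : ∀ s, cl (div0 s) = 0
  good_zero : Good 0
  good_of_add : ∀ D D', Good (D + D') → Good D
  H_nonneg : ∀ N D, 0 ≤ H N D
  H_zero : ∀ N, H N 0 = 0
  princ : ∀ E : 𝔇, cl E = 0 → ∃ s : Sec, lev s = deg E ∧ div0 s = E
  hs_mul : ∀ M : ℕ, ∃ C : ℝ, ∀ s t u : Sec, lev u ≤ M → div0 u = div0 s + div0 t →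
    |hs u - hs s - hs t| ≤ C
  ML : ∀ M : ℕ, ∃ C : ℝ, ∀ (N : ℕ) (D : 𝔇) (s : Sec), N ≤ M → deg D + lev s + c₀ ≤ N →
    |H N (D + div0 s) - ((N : ℝ) - lev s - deg D - γ) * hs s - H (N - lev s) D| ≤ C
  star : ∀ M : ℕ, ∃ C : ℝ, ∀ (N : ℕ) (D₁ D₂ D₃ : 𝔇), N ≤ M → Good (D₁ + D₂ + D₃) →
    deg D₁ + deg D₂ + deg D₃ + c₀ ≤ N →
    |H N (D₁ + D₂ + D₃) - H N (D₁ + D₂) - H N (D₁ + D₃) - H N (D₂ + D₃)
      + H N D₁ + H N D₂ + H N D₃| ≤ C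
  starInf1 : ∀ M : ℕ, ∃ C : ℝ, ∀ (N : ℕ) (D₁ D₂ : 𝔇), N ≤ M → Good (D₁ + D₂) →
    deg D₁ + deg D₂ + c₀ + 1 ≤ N →
    |(H N (D₁ + D₂) - H (N - 1) (D₁ + D₂)) - (H N D₁ - H (N - 1) D₁)
      - (H N D₂ - H (N - 1) D₂)| ≤ C
  starInf2 : ∀ M : ℕ, ∃ C : ℝ, ∀ (N : ℕ) (D : 𝔇), N ≤ M → Good D → deg D + c₀ + 2 ≤ N →
    |H N D - 2 * H (N - 1) D + H (N - 2) D| ≤ C
  small : ∀ M : ℕ, ∃ C : ℝ, ∀ (N : ℕ) (D : 𝔇), N ≤ M → deg D + c₀ ≤ N →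
    ∃ (s : Sec) (D' : 𝔇), lev s = N ∧ div0 s = D + D' ∧
      ((N : ℝ) - deg D - γ) * hs s ≤ H N D + C
  northcott : ∀ (N e : ℕ) (B : ℝ), e + c₀ ≤ N → {D : 𝔇 | deg D = e ∧ H N D ≤ B}.Finite
  move1 : ∀ (c : A) (d : ℕ) (T : 𝔇), d₀ ≤ d → Good T →
    ∃ D, deg D = d ∧ cl D = c ∧ Good (D + T)
  move2 : ∀ (D T : 𝔇) (k : ℕ), Good (D + T) → deg D + d₀ ≤ k →
    ∃ (s : Sec) (D' : 𝔇), lev s = k ∧ div0 s = D + D' ∧ Good (D + D' + T)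

end Fermat.Agent.GR.H.CanonHedge
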