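/-
GATE-R / S17, node GR-H-CANON — HEDGE TWIN (helper7): the formal core of DESIGN-H v2.

From a `CoreFrame` (sub-frame of helper20's `HeightFrame`, board 4875) we construct a function
`F : A → ℝ` which is bounded below, Northcott, and satisfies the approximate parallelogram law
(`exists_pgram_height`); `GR/H/Quad.exists_crudeHeight_of_pgram` then gives the `CrudeHeight`
package.  Proof chain (helper62 4854 / helper20 4875), with `r n e = n - e - γ` and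
`val n e D D' s = H n D + H n D' - r n e * hs s` for a datum `div0 s = D + D'`, `deg D = deg D' = e`:

1. `val_indep`   : `val n e` depends only on the class of `D`, up to a constant (ML + princ);
2. `val_small`, `finite_val_le` : lower bound and Northcott at `(e, n) = (d, 2d)` (small + northcott);
3. `val_shift`   : for GOOD data `val n d` is independent of `n ∈ [2d, N]` (★∞2 telescoping, ★∞1 and
   ML with `D = 0` at the top level);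
4. `val_pad`     : level-`d` data at `n` versus level-`2d` data at `n + d`, padding with the divisor
   of ANY section of level `d` (ML + hs_mul);
5. `pgram_at`    : the parallelogram identity at one level `N ≥ 4d + c₀` (★ three times, ML with
   `D = 0`, hs_mul).

Mathlib only.
-/
import Mathlib
import Fermat.Agent.GR.H.Quad
import Fermat.Agent.GR.H.CanonHedge.Frame

set_option autoImplicit false

namespace Fermat.Agent.GR.H.CanonHedge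

namespace CoreFrame

variable {A 𝔇 Sec : Type*} [AddCommGroup A] [AddCommMonoid 𝔇] (𝓕 : CoreFrame A 𝔇 Sec)

/-- `r n e = n - e - γ`. -/
def r (n e : ℕ) : ℝ := (n : ℝ) - (e : ℝ) - 𝓕.γ

theorem r_succ (n e : ℕ) : 𝓕.r (n + 1) e = 𝓕.r n e + 1 := by
  unfold r; push_cast; ring

theorem r_add_add (n e k : ℕ) : 𝓕.r (n + k) (e + k) = 𝓕.r n e := by
  unfold r; push_cast; ring

/-- `ML` with the level written as `n + k`. -/
theorem ML' (M : ℕ) : ∃ C : ℝ, ∀ (n k e : ℕ) (D : 𝔇) (s : Sec), n + k ≤ M → 𝓕.deg D = e →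
    𝓕.lev s = k → e + 𝓕.c₀ ≤ n →
    |𝓕.H (n + k) (D + 𝓕.div0 s) - 𝓕.r n e * 𝓕.hs s - 𝓕.H n D| ≤ C := by
  obtain ⟨C, hC⟩ := 𝓕.ML M
  refine ⟨C, fun n k e D s hM hD hk hn => ?_⟩
  have h := hC (n + k) D s hM (by rw [hD, hk]; omega)
  rw [hk, hD, Nat.add_sub_cancel] at h
  have hr : ((n + k : ℕ) : ℝ) - (k : ℝ) - (e : ℝ) - 𝓕.γ = 𝓕.r n e := by
    unfold r; push_cast; ring
  rw [hr] at h
  exact h

/-- `ML` with `D = 0`. -/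
theorem ML0 (M : ℕ) : ∃ C : ℝ, ∀ (N : ℕ) (s : Sec), N ≤ M → 𝓕.lev s + 𝓕.c₀ ≤ N →
    |𝓕.H N (𝓕.div0 s) - ((N : ℝ) - (𝓕.lev s : ℝ) - 𝓕.γ) * 𝓕.hs s| ≤ C := by
  obtain ⟨C, hC⟩ := 𝓕.ML M
  refine ⟨C, fun N s hM hN => ?_⟩
  have h := hC N 0 s hM (by rw [map_zero]; omega)
  simpa only [zero_add, 𝓕.H_zero, sub_zero, map_zero, Nat.cast_zero] using h

/-- A datum of level `e` for the class `c`. -/
structure IsDatum (e : ℕ) (c : A) (D D' : 𝔇) (s : Sec) : Prop where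
  degL : 𝓕.deg D = e
  degR : 𝓕.deg D' = e
  clL : 𝓕.cl D = c
  div : 𝓕.div0 s = D + D'

namespace IsDatum

variable {𝓕} {e : ℕ} {c : A} {D D' : 𝔇} {s : Sec}

theorem lev_eq (h : 𝓕.IsDatum e c D D' s) : 𝓕.lev s = e + e := by
  rw [← 𝓕.deg_div0, h.div, map_add, h.degL, h.degR]

theorem clR (h : 𝓕.IsDatum e c D D' s) : 𝓕.cl D' = -c := by
  have h0 := 𝓕.cl_div0 s
  rw [h.div, map_add, h.clL] at h0
  exact eq_neg_of_add_eq_zero_right h0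

theorem symm (h : 𝓕.IsDatum e c D D' s) : 𝓕.IsDatum e (-c) D' D s :=
  ⟨h.degR, h.degL, h.clR, by rw [h.div, add_comm]⟩

end IsDatum

/-- The value of a datum at level `n`. -/
def val (n e : ℕ) (D D' : 𝔇) (s : Sec) : ℝ := 𝓕.H n D + 𝓕.H n D' - 𝓕.r n e * 𝓕.hs s

theorem val_symm (n e : ℕ) (D D' : 𝔇) (s : Sec) : 𝓕.val n e D D' s = 𝓕.val n e D' D s := by
  unfold val; ring

/-! ### Step 1: datum independence -/

theorem val_sameFirst (e n : ℕ) (hn : e + 𝓕.c₀ ≤ n) : ∃ C : ℝ,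
    ∀ (c : A) (D D' D'' : 𝔇) (s s'' : Sec), 𝓕.IsDatum e c D D' s → 𝓕.IsDatum e c D D'' s'' →
    |𝓕.val n e D D' s - 𝓕.val n e D D'' s''| ≤ C := by
  obtain ⟨C, hC⟩ := 𝓕.ML' (n + (e + e))
  refine ⟨C + C, fun c D D' D'' s s'' h h'' => ?_⟩
  have h1 := hC n (e + e) e D' s'' le_rfl h.degR h''.lev_eq hn
  have h2 := hC n (e + e) e D'' s le_rfl h''.degR h.lev_eq hn
  have heq : D' + 𝓕.div0 s'' = D'' + 𝓕.div0 s := by
    rw [h.div, h''.div]; abel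
  rw [heq] at h1
  rw [abs_le] at h1 h2 ⊢
  unfold val
  constructor <;> linarith [h1.1, h1.2, h2.1, h2.2]

theorem val_indep (e n : ℕ) (hn : e + 𝓕.c₀ ≤ n) : ∃ C : ℝ,
    ∀ (c : A) (D D' E E' : 𝔇) (s t : Sec), 𝓕.IsDatum e c D D' s → 𝓕.IsDatum e c E E' t →
    |𝓕.val n e D D' s - 𝓕.val n e E E' t| ≤ C := by
  obtain ⟨C, hC⟩ := 𝓕.val_sameFirst e n hn
  refine ⟨C + C, fun c D D' E E' s t h h' => ?_⟩
  have hcl : 𝓕.cl (D' + E) = 0 := by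
    rw [map_add, h.clR, h'.clL]; exact neg_add_cancel c
  obtain ⟨u, -, hu⟩ := 𝓕.princ (D' + E) hcl
  have hu1 : 𝓕.IsDatum e (-c) D' E u := ⟨h.degR, h'.degL, h.clR, hu⟩
  have hu2 : 𝓕.IsDatum e c E D' u := by
    have := hu1.symm
    rwa [neg_neg] at this
  have h1 := hC (-c) D' D E s u h.symm hu1
  have h2 := hC c E D' E' u t hu2 h'
  rw [𝓕.val_symm n e D' D s, 𝓕.val_symm n e D' E u] at h1
  rw [abs_le] at h1 h2 ⊢
  constructor <;> linarith [h1.1, h1.2, h2.1, h2.2]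

/-! ### Existence of good data -/

theorem exists_goodDatum (d : ℕ) (hd : 𝓕.d₀ ≤ d) (T : 𝔇) (hT : 𝓕.Good T) (c : A) :
    ∃ (D D' : 𝔇) (s : Sec), 𝓕.IsDatum d c D D' s ∧ 𝓕.Good (D + D' + T) := by
  obtain ⟨D, hdeg, hcl, hg⟩ := 𝓕.move1 c d T hd hT
  obtain ⟨s, D', hlev, hdiv, hg'⟩ := 𝓕.move2 D T (d + d) hg (by rw [hdeg]; omega)
  refine ⟨D, D', s, ⟨hdeg, ?_, hcl, hdiv⟩, hg'⟩
  have h0 := 𝓕.deg_div0 s
  rw [hdiv, map_add, hdeg, hlev] at h0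
  omega

theorem exists_sec_lev (d : ℕ) (hd : 𝓕.d₀ ≤ d) : ∃ t : Sec, 𝓕.lev t = d := by
  have hg : 𝓕.Good (0 + 0) := by rw [add_zero]; exact 𝓕.good_zero
  obtain ⟨t, D', hlev, -, -⟩ := 𝓕.move2 0 0 d hg (by rw [map_zero]; omega)
  exact ⟨t, hlev⟩

/-! ### Step 2: lower bound and Northcott at `(d, 2d)` -/

theorem val_small (d : ℕ) (hd : 𝓕.c₀ ≤ d) : ∃ C : ℝ, ∀ (c : A) (D D' : 𝔇) (s : Sec),
    𝓕.IsDatum d c D D' s → ∃ D₁ : 𝔇, 𝓕.deg D₁ = d ∧ 𝓕.cl D₁ = -c ∧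
      𝓕.H (d + d) D₁ ≤ 𝓕.val (d + d) d D D' s + C := by
  obtain ⟨Cs, hCs⟩ := 𝓕.small (d + d)
  obtain ⟨Ci, hCi⟩ := 𝓕.val_indep d (d + d) (by omega)
  refine ⟨Cs + Ci, fun c D D' s h => ?_⟩
  obtain ⟨s₁, D₁, hlev, hdiv, hle⟩ := hCs (d + d) D le_rfl (by rw [h.degL]; omega)
  have hdeg : 𝓕.deg D₁ = d := by
    have h0 := 𝓕.deg_div0 s₁
    rw [hdiv, map_add, h.degL, hlev] at h0
    omega
  have h₁ : 𝓕.IsDatum d c D D₁ s₁ := ⟨h.degL, hdeg, h.clL, hdiv⟩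
  refine ⟨D₁, hdeg, h₁.clR, ?_⟩
  have hi := hCi c D D' D D₁ s s₁ h h₁
  rw [h.degL] at hle
  rw [abs_le] at hi
  have hv : 𝓕.val (d + d) d D D₁ s₁ =
      𝓕.H (d + d) D + 𝓕.H (d + d) D₁ - (((d + d : ℕ) : ℝ) - (d : ℝ) - 𝓕.γ) * 𝓕.hs s₁ := rfl
  linarith [hi.1, hi.2]

theorem val_lower (d : ℕ) (hd : 𝓕.c₀ ≤ d) : ∃ C : ℝ, ∀ (c : A) (D D' : 𝔇) (s : Sec),
    𝓕.IsDatum d c D D' s → -C ≤ 𝓕.val (d + d) d D D' s := by
  obtain ⟨C, hC⟩ := 𝓕.val_small d hd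
  refine ⟨C, fun c D D' s h => ?_⟩
  obtain ⟨D₁, -, -, hle⟩ := hC c D D' s h
  linarith [𝓕.H_nonneg (d + d) D₁]

theorem finite_val_le (d : ℕ) (hd : 𝓕.c₀ ≤ d) (F : A → ℝ)
    (hF : ∀ c, ∃ (D D' : 𝔇) (s : Sec), 𝓕.IsDatum d c D D' s ∧ F c = 𝓕.val (d + d) d D D' s)
    (B : ℝ) : {c | F c ≤ B}.Finite := by
  obtain ⟨C, hC⟩ := 𝓕.val_small d hd
  have hS := 𝓕.northcott (d + d) d (B + C) (by omega)
  refine (hS.image (fun D => -𝓕.cl D)).subset ?_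
  intro c hc
  obtain ⟨D, D', s, h, hFc⟩ := hF c
  obtain ⟨D₁, hdeg, hcl, hle⟩ := hC c D D' s h
  refine ⟨D₁, ⟨hdeg, ?_⟩, ?_⟩
  · have : F c ≤ B := hc
    linarith
  · show -𝓕.cl D₁ = c
    rw [hcl, neg_neg]

/-! ### Step 3: level independence for good data -/

/-- The first difference `H (m+1) X - H m X`. -/
def B (m : ℕ) (X : 𝔇) : ℝ := 𝓕.H (m + 1) X - 𝓕.H m X

theorem B_step (M : ℕ) : ∃ C : ℝ, ∀ (m : ℕ) (X : 𝔇), m + 2 ≤ M → 𝓕.Good X →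
    𝓕.deg X + 𝓕.c₀ ≤ m → |𝓕.B (m + 1) X - 𝓕.B m X| ≤ C := by
  obtain ⟨C, hC⟩ := 𝓕.starInf2 M
  refine ⟨C, fun m X hM hG hm => ?_⟩
  have h := hC (m + 2) X hM hG (by omega)
  have e1 : m + 2 - 1 = m + 1 := rfl
  have e2 : m + 2 - 2 = m := rfl
  rw [e1, e2] at h
  have key : 𝓕.B (m + 1) X - 𝓕.B m X =
      𝓕.H (m + 2) X - 2 * 𝓕.H (m + 1) X + 𝓕.H m X := by
    show (𝓕.H (m + 2) X - 𝓕.H (m + 1) X) - (𝓕.H (m + 1) X - 𝓕.H m X) = _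
    ring
  rw [key]
  exact h

theorem B_near (M : ℕ) : ∃ C : ℝ, ∀ (m m' : ℕ) (X : 𝔇), 𝓕.Good X → 𝓕.deg X + 𝓕.c₀ ≤ m →
    m ≤ m' → m' + 1 ≤ M → |𝓕.B m' X - 𝓕.B m X| ≤ C := by
  obtain ⟨C, hC⟩ := 𝓕.B_step M
  refine ⟨M * |C|, fun m m' X hG hm hmm' hM => ?_⟩
  obtain ⟨j, rfl⟩ := Nat.exists_eq_add_of_le hmm'
  have key : ∀ j : ℕ, m + j + 1 ≤ M → |𝓕.B (m + j) X - 𝓕.B m X| ≤ j * |C| := by
    intro j
    induction j with
    | zero => intro _; simp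
    | succ j ih =>
      intro hj
      have h1 := ih (by omega)
      have h2 := hC (m + j) X (by omega) hG (by omega)
      have h3 : C ≤ |C| := le_abs_self C
      have e : m + (j + 1) = m + j + 1 := rfl
      rw [e]
      push_cast
      rw [abs_le] at h1 h2 ⊢
      constructor <;> nlinarith [h1.1, h1.2, h2.1, h2.2]
  have hj := key j hM
  have hjM : (j : ℝ) * |C| ≤ M * |C| := by
    apply mul_le_mul_of_nonneg_right _ (abs_nonneg C)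
    exact_mod_cast (by omega : j ≤ M)
  linarith

/-- At the top level `K`, `B K D + B K D' = hs s + O(1)` for a good datum. -/
theorem B_top (d K : ℕ) (hK : d + d + 𝓕.c₀ ≤ K) : ∃ C : ℝ, ∀ (c : A) (D D' : 𝔇) (s : Sec),
    𝓕.IsDatum d c D D' s → 𝓕.Good (D + D') →
    |𝓕.B K D + 𝓕.B K D' - 𝓕.hs s| ≤ C := by
  obtain ⟨C₁, hC₁⟩ := 𝓕.starInf1 (K + 1)
  obtain ⟨C₀, hC₀⟩ := 𝓕.ML0 (K + 1)
  refine ⟨C₁ + C₀ + C₀, fun c D D' s h hG => ?_⟩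
  have h1 := hC₁ (K + 1) D D' le_rfl hG (by rw [h.degL, h.degR]; omega)
  rw [Nat.add_sub_cancel] at h1
  have h2 := hC₀ (K + 1) s le_rfl (by rw [h.lev_eq]; omega)
  have h3 := hC₀ K s (by omega) (by rw [h.lev_eq]; omega)
  rw [h.div] at h2 h3
  push_cast at h2
  rw [abs_le] at h1 h2 h3 ⊢
  unfold B
  constructor <;> linarith [h1.1, h1.2, h2.1, h2.2, h3.1, h3.2]

theorem val_step (d K : ℕ) (hd : 𝓕.c₀ ≤ d) (hK : d + d + 𝓕.c₀ ≤ K) : ∃ C : ℝ,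
    ∀ (c : A) (D D' : 𝔇) (s : Sec), 𝓕.IsDatum d c D D' s → 𝓕.Good (D + D') →
    ∀ m, d + d ≤ m → m ≤ K → |𝓕.val (m + 1) d D D' s - 𝓕.val m d D D' s| ≤ C := by
  obtain ⟨Cn, hCn⟩ := 𝓕.B_near (K + 1)
  obtain ⟨Ct, hCt⟩ := 𝓕.B_top d K hK
  refine ⟨Cn + Cn + Ct, fun c D D' s h hG m hm hmK => ?_⟩
  have gD : 𝓕.Good D := 𝓕.good_of_add D D' hG
  have gD' : 𝓕.Good D' := 𝓕.good_of_add D' D (by rwa [add_comm])
  have h1 := hCn m K D gD (by rw [h.degL]; omega) hmK le_rfl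
  have h2 := hCn m K D' gD' (by rw [h.degR]; omega) hmK le_rfl
  have h3 := hCt c D D' s h hG
  have key : 𝓕.val (m + 1) d D D' s - 𝓕.val m d D D' s = 𝓕.B m D + 𝓕.B m D' - 𝓕.hs s := by
    unfold val B; rw [𝓕.r_succ]; ring
  rw [key]
  rw [abs_le] at h1 h2 h3 ⊢
  constructor <;> linarith [h1.1, h1.2, h2.1, h2.2, h3.1, h3.2]

theorem val_shift (d K : ℕ) (hd : 𝓕.c₀ ≤ d) (hK : d + d + 𝓕.c₀ ≤ K) : ∃ C : ℝ,
    ∀ (c : A) (D D' : 𝔇) (s : Sec), 𝓕.IsDatum d c D D' s → 𝓕.Good (D + D') →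
    ∀ n, d + d ≤ n → n ≤ K + 1 → |𝓕.val n d D D' s - 𝓕.val (d + d) d D D' s| ≤ C := by
  obtain ⟨C, hC⟩ := 𝓕.val_step d K hd hK
  refine ⟨(K + 1 : ℕ) * |C|, fun c D D' s h hG n hn hnK => ?_⟩
  obtain ⟨j, rfl⟩ := Nat.exists_eq_add_of_le hn
  have key : ∀ j : ℕ, d + d + j ≤ K + 1 →
      |𝓕.val (d + d + j) d D D' s - 𝓕.val (d + d) d D D' s| ≤ j * |C| := by
    intro j
    induction j with
    | zero => intro _; simp
    | succ j ih =>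
      intro hj
      have h1 := ih (by omega)
      have h2 := hC c D D' s h hG (d + d + j) (by omega) (by omega)
      have h3 : C ≤ |C| := le_abs_self C
      have e : d + d + (j + 1) = d + d + j + 1 := rfl
      rw [e]
      push_cast
      rw [abs_le] at h1 h2 ⊢
      constructor <;> nlinarith [h1.1, h1.2, h2.1, h2.2]
  have hj := key j hnK
  have hjM : (j : ℝ) * |C| ≤ ((K + 1 : ℕ) : ℝ) * |C| := by
    apply mul_le_mul_of_nonneg_right _ (abs_nonneg C)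
    exact_mod_cast (by omega : j ≤ K + 1)
  linarith

/-! ### Step 4: padding -/

theorem val_pad (d n : ℕ) (hn : d + 𝓕.c₀ ≤ n) : ∃ C : ℝ,
    ∀ (c : A) (D D' : 𝔇) (s t u : Sec), 𝓕.IsDatum d c D D' s → 𝓕.lev t = d →
    𝓕.div0 u = (D + 𝓕.div0 t) + (D' + 𝓕.div0 t) →
    |𝓕.val (n + d) (d + d) (D + 𝓕.div0 t) (D' + 𝓕.div0 t) u - 𝓕.val n d D D' s| ≤ C := by
  obtain ⟨Cm, hCm⟩ := 𝓕.ML' (n + d)
  obtain ⟨Ch, hCh⟩ := 𝓕.hs_mul (d + d + (d + d))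
  refine ⟨Cm + Cm + |𝓕.r n d| * (Ch + Ch), fun c D D' s t u h ht hu => ?_⟩
  have h1 := hCm n d d D t le_rfl h.degL ht hn
  have h2 := hCm n d d D' t le_rfl h.degR ht hn
  have hcl : 𝓕.cl (𝓕.div0 s + 𝓕.div0 t) = 0 := by
    rw [map_add, 𝓕.cl_div0, 𝓕.cl_div0, add_zero]
  obtain ⟨w, hwl, hw⟩ := 𝓕.princ _ hcl
  have hwlev : 𝓕.lev w ≤ d + d + (d + d) := by
    rw [hwl, map_add, 𝓕.deg_div0, 𝓕.deg_div0, h.lev_eq, ht]; omega
  have hulev : 𝓕.lev u ≤ d + d + (d + d) := by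
    rw [← 𝓕.deg_div0, hu, map_add, map_add, map_add, 𝓕.deg_div0, h.degL, h.degR, ht]
  have hu' : 𝓕.div0 u = 𝓕.div0 w + 𝓕.div0 t := by
    rw [hu, hw, h.div]; abel
  have h3 := hCh s t w hwlev hw
  have h4 := hCh w t u hulev hu'
  have hx : |𝓕.hs u - 𝓕.hs s - 2 * 𝓕.hs t| ≤ Ch + Ch := by
    rw [abs_le] at h3 h4 ⊢
    constructor <;> linarith [h3.1, h3.2, h4.1, h4.2]
  have hrx : |𝓕.r n d * (𝓕.hs u - 𝓕.hs s - 2 * 𝓕.hs t)| ≤ |𝓕.r n d| * (Ch + Ch) := by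
    rw [abs_mul]; exact mul_le_mul_of_nonneg_left hx (abs_nonneg _)
  have key : 𝓕.val (n + d) (d + d) (D + 𝓕.div0 t) (D' + 𝓕.div0 t) u - 𝓕.val n d D D' s =
      (𝓕.H (n + d) (D + 𝓕.div0 t) - 𝓕.r n d * 𝓕.hs t - 𝓕.H n D)
      + (𝓕.H (n + d) (D' + 𝓕.div0 t) - 𝓕.r n d * 𝓕.hs t - 𝓕.H n D')
      - 𝓕.r n d * (𝓕.hs u - 𝓕.hs s - 2 * 𝓕.hs t) := by
    unfold val; rw [𝓕.r_add_add]; ring
  rw [key]
  rw [abs_le] at h1 h2 hrx ⊢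
  constructor <;> linarith [h1.1, h1.2, h2.1, h2.2, hrx.1, hrx.2]

/-! ### Step 5: the parallelogram identity at one level -/

theorem pgram_at (d N : ℕ) (hN : d + d + (d + d) + 𝓕.c₀ ≤ N) : ∃ C : ℝ,
    ∀ (a b : A) (Da Da' Db Db' : 𝔇) (sa sb sab : Sec),
    𝓕.IsDatum d a Da Da' sa → 𝓕.IsDatum d b Db Db' sb → 𝓕.Good (Db + Db' + (Da + Da')) →
    𝓕.div0 sab = 𝓕.div0 sa + 𝓕.div0 sb →
    |𝓕.val N (d + d) (Da + Db) (Da' + Db') sab + 𝓕.val N (d + d) (Da + Db') (Da' + Db) sab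
      - 2 * (𝓕.val N d Da Da' sa + 𝓕.val N d Db Db' sb)| ≤ C := by
  obtain ⟨Cs, hCs⟩ := 𝓕.star N
  obtain ⟨C0, hC0⟩ := 𝓕.ML0 N
  obtain ⟨Ch, hCh⟩ := 𝓕.hs_mul (d + d + (d + d))
  refine ⟨|𝓕.γ - (N : ℝ)| * Ch + (C0 + C0 + C0) + (Cs + Cs + Cs),
    fun a b Da Da' Db Db' sa sb sab ha hb hG hab => ?_⟩
  have g1 : 𝓕.Good (Da + Db + Db') := 𝓕.good_of_add _ Da' (by convert hG using 1; abel)
  have g2 : 𝓕.Good (Da' + Db + Db') := 𝓕.good_of_add _ Da (by convert hG using 1; abel)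
  have g3 : 𝓕.Good (Da + Da' + (Db + Db')) := by convert hG using 1; abel
  have s1 := hCs N Da Db Db' le_rfl g1 (by rw [ha.degL, hb.degL, hb.degR]; omega)
  have s2 := hCs N Da' Db Db' le_rfl g2 (by rw [ha.degR, hb.degL, hb.degR]; omega)
  have s3 := hCs N Da Da' (Db + Db') le_rfl g3
    (by rw [map_add, ha.degL, ha.degR, hb.degL, hb.degR]; omega)
  rw [← add_assoc Da Db Db', ← add_assoc Da' Db Db'] at s3
  have hlab : 𝓕.lev sab = d + d + (d + d) := by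
    rw [← 𝓕.deg_div0, hab, map_add, 𝓕.deg_div0, 𝓕.deg_div0, ha.lev_eq, hb.lev_eq]
  have ma := hC0 N sa le_rfl (by rw [ha.lev_eq]; omega)
  have mb := hC0 N sb le_rfl (by rw [hb.lev_eq]; omega)
  have mab := hC0 N sab le_rfl (by rw [hlab]; omega)
  rw [ha.lev_eq, ha.div] at ma
  rw [hb.lev_eq, hb.div] at mb
  rw [hlab, hab, ha.div, hb.div] at mab
  have hh := hCh sa sb sab (le_of_eq hlab) hab
  have hrx : |(𝓕.γ - (N : ℝ)) * (𝓕.hs sab - 𝓕.hs sa - 𝓕.hs sb)| ≤ |𝓕.γ - (N : ℝ)| * Ch := by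
    rw [abs_mul]; exact mul_le_mul_of_nonneg_left hh (abs_nonneg _)
  have key : 𝓕.val N (d + d) (Da + Db) (Da' + Db') sab
      + 𝓕.val N (d + d) (Da + Db') (Da' + Db) sab
      - 2 * (𝓕.val N d Da Da' sa + 𝓕.val N d Db Db' sb) =
      (𝓕.γ - (N : ℝ)) * (𝓕.hs sab - 𝓕.hs sa - 𝓕.hs sb)
      + (𝓕.H N (Da + Da' + (Db + Db'))
          - ((N : ℝ) - ((d + d + (d + d) : ℕ) : ℝ) - 𝓕.γ) * 𝓕.hs sab)
      - (𝓕.H N (Da + Da') - ((N : ℝ) - ((d + d : ℕ) : ℝ) - 𝓕.γ) * 𝓕.hs sa)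
      - (𝓕.H N (Db + Db') - ((N : ℝ) - ((d + d : ℕ) : ℝ) - 𝓕.γ) * 𝓕.hs sb)
      - (𝓕.H N (Da + Db + Db') - 𝓕.H N (Da + Db) - 𝓕.H N (Da + Db') - 𝓕.H N (Db + Db')
          + 𝓕.H N Da + 𝓕.H N Db + 𝓕.H N Db')
      - (𝓕.H N (Da' + Db + Db') - 𝓕.H N (Da' + Db) - 𝓕.H N (Da' + Db') - 𝓕.H N (Db + Db')
          + 𝓕.H N Da' + 𝓕.H N Db + 𝓕.H N Db')
      - (𝓕.H N (Da + Da' + (Db + Db')) - 𝓕.H N (Da + Da') - 𝓕.H N (Da + Db + Db')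
          - 𝓕.H N (Da' + Db + Db') + 𝓕.H N Da + 𝓕.H N Da' + 𝓕.H N (Db + Db')) := by
    unfold val r; push_cast; ring
  rw [key]
  rw [abs_le] at s1 s2 s3 ma mb mab hrx ⊢
  constructor <;>
    linarith [s1.1, s1.2, s2.1, s2.2, s3.1, s3.2, ma.1, ma.2, mb.1, mb.2, mab.1, mab.2,
      hrx.1, hrx.2]

/-! ### Comparison of a good level-`d` datum at level `2d` with any level-`2d` datum at level `N` -/

theorem val_compare (d : ℕ) (hd0 : 𝓕.d₀ ≤ d) (hd : 𝓕.c₀ ≤ d) : ∃ C : ℝ,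
    ∀ (c : A) (P P' Q Q' : 𝔇) (s v : Sec), 𝓕.IsDatum d c P P' s → 𝓕.Good (P + P') →
    𝓕.IsDatum (d + d) c Q Q' v →
    |𝓕.val (d + d) d P P' s - 𝓕.val (d + d + d + 𝓕.c₀ + 1 + d) (d + d) Q Q' v| ≤ C := by
  obtain ⟨Cp, hCp⟩ := 𝓕.val_pad d (d + d + d + 𝓕.c₀ + 1) (by omega)
  obtain ⟨Csh, hCsh⟩ := 𝓕.val_shift d (d + d + (d + d) + 𝓕.c₀) hd (by omega)
  obtain ⟨Ci, hCi⟩ := 𝓕.val_indep (d + d) (d + d + d + 𝓕.c₀ + 1 + d) (by omega)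
  obtain ⟨t, ht⟩ := 𝓕.exists_sec_lev d hd0
  refine ⟨Cp + Csh + Ci, fun c P P' Q Q' s v h hG hQ => ?_⟩
  have hcl : 𝓕.cl ((P + 𝓕.div0 t) + (P' + 𝓕.div0 t)) = 0 := by
    have e : (P + 𝓕.div0 t) + (P' + 𝓕.div0 t) = 𝓕.div0 s + 𝓕.div0 t + 𝓕.div0 t := by
      rw [h.div]; abel
    rw [e, map_add, map_add, 𝓕.cl_div0, 𝓕.cl_div0, add_zero, add_zero]
  obtain ⟨u, -, hu⟩ := 𝓕.princ _ hcl
  have hdat : 𝓕.IsDatum (d + d) c (P + 𝓕.div0 t) (P' + 𝓕.div0 t) u :=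
    ⟨by rw [map_add, h.degL, 𝓕.deg_div0, ht], by rw [map_add, h.degR, 𝓕.deg_div0, ht],
      by rw [map_add, h.clL, 𝓕.cl_div0, add_zero], hu⟩
  have h1 := hCp c P P' s t u h ht hu
  have h2 := hCsh c P P' s h hG (d + d + d + 𝓕.c₀ + 1) (by omega) (by omega)
  have h3 := hCi c _ _ Q Q' u v hdat hQ
  rw [abs_le] at h1 h2 h3 ⊢
  constructor <;> linarith [h1.1, h1.2, h2.1, h2.2, h3.1, h3.2]

/-! ### Assembly -/

/-- **The canonical-height core**: a `CoreFrame` yields a function on `A` which is bounded below,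
satisfies the approximate parallelogram law, and is Northcott. -/
theorem exists_pgram_height (𝓕 : CoreFrame A 𝔇 Sec) : ∃ F : A → ℝ, ∃ C₀ C : ℝ, (∀ x, -C₀ ≤ F x) ∧
    (∀ x y, |Quad.pgram F x y| ≤ C) ∧ Northcott F := by
  classical
  set d : ℕ := max 𝓕.d₀ 𝓕.c₀ with hd_def
  have hd0 : 𝓕.d₀ ≤ d := le_max_left _ _
  have hd : 𝓕.c₀ ≤ d := le_max_right _ _
  set N : ℕ := d + d + d + 𝓕.c₀ + 1 + d with hN_def
  choose Dc Dc' sc hdat hgood0 using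
    fun c => 𝓕.exists_goodDatum d hd0 0 𝓕.good_zero c
  have hgood : ∀ c, 𝓕.Good (Dc c + Dc' c) := fun c => by
    have := hgood0 c
    rwa [add_zero] at this
  obtain ⟨Clow, hClow⟩ := 𝓕.val_lower d hd
  obtain ⟨Ccmp, hCcmp⟩ := 𝓕.val_compare d hd0 hd
  obtain ⟨Cpg, hCpg⟩ := 𝓕.pgram_at d N (by omega)
  obtain ⟨Ci, hCi⟩ := 𝓕.val_indep d (d + d) (by omega)
  obtain ⟨Csh, hCsh⟩ := 𝓕.val_shift d (d + d + (d + d) + 𝓕.c₀) hd (by omega)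
  refine ⟨fun c => 𝓕.val (d + d) d (Dc c) (Dc' c) (sc c), Clow,
    Ccmp + Ccmp + Cpg + 2 * ((Ci + Csh) + (Ci + Csh)), fun c => hClow c _ _ _ (hdat c), ?_,
    ⟨fun B => 𝓕.finite_val_le d hd _ (fun c => ⟨_, _, _, hdat c, rfl⟩) B⟩⟩
  intro a b
  obtain ⟨Da, Da', sa, ha, hGa0⟩ := 𝓕.exists_goodDatum d hd0 0 𝓕.good_zero a
  have hGa : 𝓕.Good (Da + Da') := by rwa [add_zero] at hGa0
  obtain ⟨Db, Db', sb, hb, hG⟩ := 𝓕.exists_goodDatum d hd0 (Da + Da') hGa b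
  have hGb : 𝓕.Good (Db + Db') := 𝓕.good_of_add _ _ hG
  have hcl : 𝓕.cl (𝓕.div0 sa + 𝓕.div0 sb) = 0 := by
    rw [map_add, 𝓕.cl_div0, 𝓕.cl_div0, add_zero]
  obtain ⟨sab, -, hab⟩ := 𝓕.princ _ hcl
  have hplus : 𝓕.IsDatum (d + d) (a + b) (Da + Db) (Da' + Db') sab :=
    ⟨by rw [map_add, ha.degL, hb.degL], by rw [map_add, ha.degR, hb.degR],
      by rw [map_add, ha.clL, hb.clL], by rw [hab, ha.div, hb.div]; abel⟩
  have hminus : 𝓕.IsDatum (d + d) (a - b) (Da + Db') (Da' + Db) sab :=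
    ⟨by rw [map_add, ha.degL, hb.degR], by rw [map_add, ha.degR, hb.degL],
      by rw [map_add, ha.clL, hb.clR, sub_eq_add_neg], by rw [hab, ha.div, hb.div]; abel⟩
  have p1 := hCcmp (a + b) _ _ _ _ _ _ (hdat (a + b)) (hgood (a + b)) hplus
  have p2 := hCcmp (a - b) _ _ _ _ _ _ (hdat (a - b)) (hgood (a - b)) hminus
  have p3 := hCpg a b Da Da' Db Db' sa sb sab ha hb hG hab
  have a1 := hCi a _ _ _ _ _ _ (hdat a) ha
  have a2 := hCsh a Da Da' sa ha hGa N (by omega) (by omega)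
  have b1 := hCi b _ _ _ _ _ _ (hdat b) hb
  have b2 := hCsh b Db Db' sb hb hGb N (by omega) (by omega)
  unfold Quad.pgram
  simp only []
  rw [abs_le] at p1 p2 p3 a1 a2 b1 b2 ⊢
  constructor <;>
    linarith [p1.1, p1.2, p2.1, p2.2, p3.1, p3.2, a1.1, a1.2, a2.1, a2.2, b1.1, b1.2, b2.1, b2.2]

/-- The `CrudeHeight` package (Northcott + UP + LOW for the multiplier `n ≥ 2`) from a `CoreFrame`. -/
theorem exists_crudeHeight (𝓕 : CoreFrame A 𝔇 Sec) {n : ℕ} (hn : 2 ≤ n) :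
    ∃ h : A → ℝ, Northcott h ∧
      (∃ a : ℝ, 0 ≤ a ∧ ∃ c : A → ℝ, ∀ g x, h x ≤ a * h (g + x) + c g) ∧
      ∃ b : ℝ, 1 < b ∧ ∃ c₀ : ℝ, ∀ x, b * h x - c₀ ≤ h (n • x) := by
  obtain ⟨F, C₀, C, hlow, hp, hN⟩ := 𝓕.exists_pgram_height
  exact Quad.exists_crudeHeight_of_pgram hlow hp hn

/-- Finite generation of `A` from a `CoreFrame` and weak Mordell–Weil at one `n ≥ 2`. -/
theorem fg_of_coreFrame (𝓕 : CoreFrame A 𝔇 Sec) {n : ℕ} (hn : 2 ≤ n)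
    (H₁ : (nsmulAddMonoidHom (α := A) n).range.FiniteIndex) : AddGroup.FG A := by
  obtain ⟨F, C₀, C, hlow, hp, hN⟩ := 𝓕.exists_pgram_height
  exact Quad.fg_of_pgram hlow hp hn H₁

end CoreFrame

end Fermat.Agent.GR.H.CanonHedge
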