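/-
GATE-R / S17, node GR-H-CANON — HEDGE TWIN (helper7): plug of `CanonHedge/Main.lean` into
`GR/Top/S17Top.CrudeHeight` and the frozen S17 conclusion.  The whole height node `[R-H]` is
reduced to ONE term `𝓕 : CoreFrame ↥(MW N) 𝔇 Sec`.
-/
import Fermat.Agent.GR.H.QuadPlug
import Fermat.Agent.GR.H.CanonHedge.Main

set_option autoImplicit false
open ModularCurve AlgebraicCurve

namespace Fermat.Agent.GR.H.CanonHedge

open Fermat.Agent.GR.Top.S17Top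

/-- `[R-H]` from a `CoreFrame` on `J₀(N)(ℚ)`. -/
theorem crudeHeight_of_coreFrame (N : ℕ) {n : ℕ} (hn : 2 ≤ n) {𝔇 Sec : Type*} [AddCommMonoid 𝔇]
    (𝓕 : CoreFrame ↥(MW N) 𝔇 Sec) : CrudeHeight N n :=
  𝓕.exists_crudeHeight hn

/-- The frozen S17 conclusion from weak Mordell–Weil at `n ≥ 2` and a `CoreFrame`. -/
theorem s17_of_weakMW_of_coreFrame (N : ℕ) [NeZero N] {n : ℕ} (hn : 2 ≤ n) (hW : WeakMW N n)
    {𝔇 Sec : Type*} [AddCommMonoid 𝔇] (𝓕 : CoreFrame ↥(MW N) 𝔇 Sec) :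
    AddGroup.FG ↥(FixedPoints.addSubgroup ((AlgebraicClosure ℚ) ≃ₐ[ℚ] (AlgebraicClosure ℚ))
      (JZero N)) :=
  s17_of_nodes N n hW (crudeHeight_of_coreFrame N hn 𝓕)

end Fermat.Agent.GR.H.CanonHedge
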